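import Mathlib

/-!
# Chebotarev library: basic definitions
-/

set_option autoImplicit false

namespace Fermat.Agent.ChebLib

open NumberField IsDedekindDomain

/-- number of primes of `K` of norm `ℓ` -/
noncomputable def degOne (K : Type) [Field K] [NumberField K] (ℓ : ℕ) : ℕ :=
  Nat.card {v : HeightOneSpectrum (𝓞 K) // Ideal.absNorm v.asIdeal = ℓ}

/-- the L-series of the ideal character `I ↦ χ (N I)` -/
noncomputable def rayL (K : Type) [Field K] [NumberField K] {m : ℕ} (χ : DirichletCharacter ℂ m)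
    (s : ℝ) : ℂ :=
  ∑' I : Ideal (𝓞 K), χ ((Ideal.absNorm I : ℕ) : ZMod m) * (((Ideal.absNorm I : ℝ) ^ (-s) : ℝ) : ℂ)

end Fermat.Agent.ChebLib
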