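import Mathlib
import Fermat.Agent.Cheb.Defs
import Fermat.Agent.S14.LiftPlace

/-!
# Chebotarev library, leaf (F): Frobenius elements over a prime of degree one
-/

set_option autoImplicit false
set_option linter.style.haveILetI false

namespace Fermat.Agent.ChebLib

open NumberField IsDedekindDomain Fermat.Agent.S14Lib
open scoped Pointwise
open Fermat.Agent.FrobLib

local notation "Qb" => AlgebraicClosure ℚ
local notation "GQ" => (AlgebraicClosure ℚ ≃ₐ[ℚ] AlgebraicClosure ℚ)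
local notation "Zbar" => integralClosure ℤ (AlgebraicClosure ℚ)

attribute [local instance] isAlgebraic_Qbar isAlgClosure_Qbar

/-- an element of `G_ℚ` which stabilises the center of `A` and acts as `b ↦ b ^ ℓ` modulo the
center is a Frobenius element at `A` -/
theorem F.isFrobeniusAt_of_center (A : ValuationSubring Qb) {ℓ : ℕ} (hℓ : ℓ.Prime)
    (hA : A.LiesOverPrime ℓ) (σ : GQ) (hσQ : σ • center A = center A)
    (hσF : ∀ b : Zbar, σ • b - b ^ ℓ ∈ center A) : A.IsFrobeniusAt σ ℓ := by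
  have hσ := LP_mem_decomposition A hℓ hA σ hσQ
  refine ⟨hσ, fun x => ?_⟩
  obtain ⟨a, rfl⟩ := IsLocalRing.residue_surjective x
  obtain ⟨b, hb, hbx, hbn⟩ := exists_integral_mul A hℓ hA a.2 (isAlgebraic_int_Qbar a)
  set g : A.decompositionSubgroup ℚ := ⟨σ, hσ⟩ with hg
  set b' : A := incl A ⟨b, hb⟩ with hb'
  set c' : A := incl A ⟨b * a, hbx⟩ with hc'
  have hmul : b' * a = c' := Subtype.ext rfl
  have hfrob : ∀ z : Zbar,
      IsLocalRing.residue A (g • incl A z) = IsLocalRing.residue A (incl A z) ^ ℓ := by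
    intro z
    rw [← map_pow, ← sub_eq_zero, ← map_sub, IsLocalRing.residue_eq_zero_iff]
    have h1 := hσF z
    rw [center, Ideal.mem_comap] at h1
    exact h1
  have hb0 : IsLocalRing.residue A b' ≠ 0 := by
    rw [Ne, IsLocalRing.residue_eq_zero_iff]
    intro h
    exact hbn ((mem_center_iff A ⟨b, hb⟩).mp h)
  have h2 : IsLocalRing.residue A (g • b') * IsLocalRing.residue A (g • a) =
      IsLocalRing.residue A (g • c') := by
    rw [← map_mul, ← smul_mul', hmul]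
  rw [hfrob, hfrob, ← hb', ← hc', ← hmul, map_mul, mul_pow] at h2
  rw [← IsLocalRing.ResidueField.residue_smul]
  exact mul_left_cancel₀ (pow_ne_zero _ hb0) h2

/-- modulo a prime of norm `ℓ` every integer satisfies `x ^ ℓ = x` -/
theorem F.pow_sub_mem (E : Type) [Field E] [NumberField E] (ℓ : ℕ) (hℓ : ℓ.Prime)
    (v : Ideal (𝓞 E)) (hv : v.IsPrime) (hvℓ : Ideal.absNorm v = ℓ) (x : 𝓞 E) :
    x ^ ℓ - x ∈ v := by
  have hv0 : v ≠ ⊥ := by
    rintro rfl
    rw [Ideal.absNorm_bot] at hvℓ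
    exact hℓ.ne_zero hvℓ.symm
  haveI : v.IsMaximal := hv.isMaximal hv0
  letI : Field (𝓞 E ⧸ v) := Ideal.Quotient.field v
  haveI : Finite (𝓞 E ⧸ v) := Ideal.finiteQuotientOfFreeOfNeBot v hv0
  letI : Fintype (𝓞 E ⧸ v) := Fintype.ofFinite _
  have hcard : Fintype.card (𝓞 E ⧸ v) = ℓ := by
    rw [← hvℓ, Ideal.absNorm_apply, Submodule.cardQuot_apply, Nat.card_eq_fintype_card]
  rw [← Ideal.Quotient.eq, map_pow]
  have := FiniteField.pow_card (Ideal.Quotient.mk v x)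
  rwa [hcard] at this

theorem exists_frobenius_over (E : IntermediateField ℚ Qb) [NumberField E] (ℓ : ℕ) (hℓ : ℓ.Prime)
    (v : Ideal (𝓞 E)) (hv : v.IsPrime) (hvℓ : Ideal.absNorm v = ℓ)
    (A : ValuationSubring Qb)
    (hA : ∀ x : 𝓞 E, LP_toZbar E x ∈ Fermat.Agent.FrobLib.center A ↔ x ∈ v) :
    A.LiesOverPrime ℓ ∧ ∃ φ : GQ, A.IsFrobeniusAt φ ℓ ∧ φ ∈ E.fixingSubgroup := by
  have hAℓ : A.LiesOverPrime ℓ := by
    have h0 : ((ℓ : ℕ) : 𝓞 E) ∈ v := hvℓ ▸ Ideal.absNorm_mem v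
    have h1 := (hA _).mpr h0
    rw [mem_center_iff, LP_coe_toZbar] at h1
    show (ℓ : Qb) ∈ A.nonunits
    simpa using h1
  refine ⟨hAℓ, ?_⟩
  obtain ⟨σ, hσQ, hσF⟩ := exists_stabilizer_frob A hℓ hAℓ
  obtain ⟨g, hg, hgQ, hgσ⟩ := LP_inertia E.fixingSubgroup (E.fixingSubgroup_isClosed)
    (center A) σ hσQ (by
      intro b hb
      obtain ⟨x, rfl⟩ := LP_exists_toZbar E b hb
      have h1 := hσF (LP_toZbar E x)
      have h2 : LP_toZbar E x ^ ℓ - LP_toZbar E x ∈ center A := by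
        rw [← map_pow, ← map_sub, hA]
        exact F.pow_sub_mem E ℓ hℓ v hv hvℓ x
      have := (center A).add_mem h1 h2
      rwa [sub_add_sub_cancel] at this)
  refine ⟨g, F.isFrobeniusAt_of_center A hℓ hAℓ g hgQ (fun b => ?_), hg⟩
  have := (center A).add_mem (hgσ b) (hσF b)
  rwa [sub_add_sub_cancel] at this

theorem exists_frobenius_of_degOne (E : IntermediateField ℚ Qb) [NumberField E] (ℓ : ℕ)
    (hℓ : ℓ.Prime) (h : degOne E ℓ ≠ 0) :
    ∃ (A : ValuationSubring Qb) (φ : GQ), A.LiesOverPrime ℓ ∧ A.IsFrobeniusAt φ ℓ ∧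
      φ ∈ E.fixingSubgroup := by
  have hne : Nonempty {v : HeightOneSpectrum (𝓞 E) // Ideal.absNorm v.asIdeal = ℓ} := by
    by_contra hcon
    rw [not_nonempty_iff] at hcon
    exact h Nat.card_of_isEmpty
  obtain ⟨⟨v, hv⟩⟩ := hne
  obtain ⟨A, hA⟩ := LP_exists_place E v.asIdeal v.isPrime v.ne_bot
  obtain ⟨h1, φ, h2, h3⟩ := exists_frobenius_over E ℓ hℓ v.asIdeal v.isPrime hv A hA
  exact ⟨A, φ, h1, h2, h3⟩

end Fermat.Agent.ChebLib
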