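import Mathlib
import Fermat.Agent.Cheb.Defs
import Fermat.Agent.Lib.FrobeniusExists
import Fermat.Prelude.Def_FLTPrelim_Ramification

/-!
# Chebotarev library, leaf (Z): the action of a Frobenius element on roots of unity
-/

set_option autoImplicit false
set_option linter.style.haveILetI false

namespace Fermat.Agent.ChebLib

open Fermat.Agent.FrobLib

local notation "Qb" => AlgebraicClosure ℚ
local notation "GQ" => (AlgebraicClosure ℚ ≃ₐ[ℚ] AlgebraicClosure ℚ)

/-- reduction is injective on roots of unity of order prime to the residue characteristic -/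
theorem Z.eq_of_sub_mem_nonunits {L : Type*} [Field L] (A : ValuationSubring L) {ℓ m : ℕ}
    (hℓ : ℓ.Prime) (hA : (ℓ : L) ∈ A.nonunits) (hm : ¬ ℓ ∣ m) {α β : L} (hα : α ^ m = 1)
    (hβ : β ^ m = 1) (h : α - β ∈ A.nonunits) : α = β := by
  by_contra hne
  have hm0 : m ≠ 0 := by
    rintro rfl
    exact hm (dvd_zero _)
  have hβ0 : β ≠ 0 := by
    rintro rfl
    rw [zero_pow hm0] at hβ
    exact zero_ne_one hβ
  have hvβ : A.valuation β = 1 := by
    have h1 : A.valuation β ^ m = 1 := by rw [← map_pow, hβ, map_one]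
    exact (pow_eq_one_iff_of_nonneg zero_le hm0).mp h1
  set u : L := α * β⁻¹ with hu
  have hum : u ^ m = 1 := by rw [hu, mul_pow, inv_pow, hα, hβ, inv_one, mul_one]
  have hu1 : u ≠ 1 := by
    intro h1
    apply hne
    rw [hu] at h1
    field_simp at h1
    exact h1
  have hvu : A.valuation u = 1 := by
    have h1 : A.valuation u ^ m = 1 := by rw [← map_pow, hum, map_one]
    exact (pow_eq_one_iff_of_nonneg zero_le hm0).mp h1
  have hv1 : A.valuation (1 - u) < 1 := by
    have h1 : 1 - u = -((α - β) * β⁻¹) := by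
      rw [hu]
      field_simp
      ring
    rw [h1, Valuation.map_neg, map_mul, map_inv₀, hvβ, inv_one, mul_one]
    exact (ValuationSubring.mem_nonunits_iff A).mp h
  have hvi : ∀ i : ℕ, A.valuation (1 - u ^ i) < 1 := by
    intro i
    induction i with
    | zero => simp
    | succ i ih =>
      have h1 : 1 - u ^ (i + 1) = u * (1 - u ^ i) + (1 - u) := by ring
      rw [h1]
      apply Valuation.map_add_lt _ _ hv1
      rw [map_mul, hvu, one_mul]
      exact ih
  have hsum : ∑ i ∈ Finset.range m, u ^ i = 0 := by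
    have h1 := geom_sum_mul u m
    rw [hum, sub_self, mul_eq_zero] at h1
    rcases h1 with h1 | h1
    · exact h1
    · exact absurd (sub_eq_zero.mp h1) hu1
  have hmsum : (m : L) = ∑ i ∈ Finset.range m, (1 - u ^ i) := by
    rw [Finset.sum_sub_distrib, hsum, sub_zero]
    simp
  have hvm : A.valuation (m : L) < 1 := by
    rw [hmsum]
    exact Valuation.map_sum_lt _ one_ne_zero (fun i _ => hvi i)
  have h2 : (ℓ : ℤ) ∣ (m : ℤ) := by
    apply int_dvd_of_mem_nonunits A hℓ hA
    rw [ValuationSubring.mem_nonunits_iff]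
    simpa using hvm
  exact hm (Int.natCast_dvd_natCast.mp h2)

theorem frobenius_zeta (A : ValuationSubring Qb) (φ : GQ) (ℓ m : ℕ) (hℓ : ℓ.Prime)
    (hA : A.LiesOverPrime ℓ) (hφ : A.IsFrobeniusAt φ ℓ) (hm : ¬ ℓ ∣ m) (ζ : Qb)
    (hζ : ζ ^ m = 1) : φ ζ = ζ ^ ℓ := by
  have hm0 : m ≠ 0 := by
    rintro rfl
    exact hm (dvd_zero _)
  have hζA : ζ ∈ A := by
    apply integral_mem_valuationSubring
    exact IsIntegral.of_pow (Nat.pos_of_ne_zero hm0) (hζ ▸ isIntegral_one)
  apply Z.eq_of_sub_mem_nonunits A hℓ hA hm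
  · rw [← map_pow, hζ, map_one]
  · rw [← pow_mul, mul_comm, pow_mul, hζ, one_pow]
  obtain ⟨hσ, hF⟩ := hφ
  have h1 := hF (IsLocalRing.residue A ⟨ζ, hζA⟩)
  rw [← IsLocalRing.ResidueField.residue_smul, ← map_pow, ← sub_eq_zero, ← map_sub,
    IsLocalRing.residue_eq_zero_iff] at h1
  rw [ValuationSubring.mem_nonunits_iff_exists_mem_maximalIdeal]
  exact ⟨_, h1⟩

end Fermat.Agent.ChebLib
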