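import Mathlib
import Fermat.Agent.Cheb.Defs

/-!
# Chebotarev library, leaf (U): at most `[M : E]` primes of degree one above a prime of degree one
-/

set_option autoImplicit false
set_option linter.style.haveILetI false

namespace Fermat.Agent.ChebLib

open NumberField IsDedekindDomain

local notation "Qb" => AlgebraicClosure ℚ

namespace U

section General

variable (K L : Type) [Field K] [NumberField K] [Field L] [NumberField L] [Algebra K L]

theorem finite_primesOver (v : Ideal (𝓞 K)) : Finite (v.primesOver (𝓞 L)) :=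
  (Algebra.QuasiFinite.finite_primesOver v).to_subtype

/-- the fundamental identity -/
theorem sum_eq (v : Ideal (𝓞 K)) [v.IsPrime] [Fintype (v.primesOver (𝓞 L))] :
    ∑ q : v.primesOver (𝓞 L), q.1.ramificationIdx (𝓞 K) * q.1.inertiaDeg (𝓞 K) =
      Module.finrank K L := by
  rw [Ideal.sum_ramification_inertia_eq_finrank, IsFractionRing.finrank_eq (𝓞 K) K (𝓞 L) L]

theorem card_primesOver_le (v : Ideal (𝓞 K)) [v.IsPrime] :
    Nat.card (v.primesOver (𝓞 L)) ≤ Module.finrank K L := by
  haveI := finite_primesOver K L v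
  letI : Fintype (v.primesOver (𝓞 L)) := Fintype.ofFinite _
  rw [← sum_eq K L v, Nat.card_eq_fintype_card, Fintype.card_eq_sum_ones]
  refine Finset.sum_le_sum fun q _ => ?_
  haveI : q.1.IsPrime := q.2.1
  exact Nat.mul_pos (Ideal.ramificationIdx_pos q.1 (𝓞 K)) (Ideal.inertiaDeg_pos q.1 (𝓞 K))

theorem finite_degOne (ℓ : ℕ) :
    Finite {v : HeightOneSpectrum (𝓞 K) // Ideal.absNorm v.asIdeal = ℓ} := by
  haveI : Finite {I : Ideal (𝓞 K) // Ideal.absNorm I = ℓ} :=
    (Ideal.finite_setOfPred_absNorm_eq (S := 𝓞 K) ℓ).to_subtype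
  refine Finite.of_injective
    (fun v => (⟨v.1.asIdeal, v.2⟩ : {I : Ideal (𝓞 K) // Ideal.absNorm I = ℓ})) ?_
  intro v w h
  exact Subtype.ext (HeightOneSpectrum.ext (congrArg Subtype.val h))

/-- the prime of `K` below a prime of norm `ℓ` of `L` -/
theorem absNorm_under {ℓ : ℕ} (hℓ : ℓ.Prime) (w : Ideal (𝓞 L)) [w.IsPrime]
    (hw : Ideal.absNorm w = ℓ) : Ideal.absNorm (w.under (𝓞 K)) = ℓ := by
  have h1 := Ideal.absNorm_pow_inertiaDeg (w.under (𝓞 K)) w
  rw [hw] at h1
  exact ((Nat.Prime.pow_eq_iff hℓ).mp h1).1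

/-- the map from primes of norm `ℓ` of `L` to primes of norm `ℓ` of `K` -/
noncomputable def below {ℓ : ℕ} (hℓ : ℓ.Prime)
    (w : {w : HeightOneSpectrum (𝓞 L) // Ideal.absNorm w.asIdeal = ℓ}) :
    {v : HeightOneSpectrum (𝓞 K) // Ideal.absNorm v.asIdeal = ℓ} :=
  haveI := w.1.isPrime
  ⟨⟨w.1.asIdeal.under (𝓞 K), inferInstance, by
    intro h
    have h1 := absNorm_under K L hℓ w.1.asIdeal w.2
    rw [h, Ideal.absNorm_bot] at h1
    exact hℓ.ne_zero h1.symm⟩, absNorm_under K L hℓ w.1.asIdeal w.2⟩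

theorem degOne_le_of_algebra {ℓ : ℕ} (hℓ : ℓ.Prime) :
    degOne L ℓ ≤ Module.finrank K L * degOne K ℓ := by
  haveI := finite_degOne K ℓ
  haveI := finite_degOne L ℓ
  letI : Fintype {v : HeightOneSpectrum (𝓞 K) // Ideal.absNorm v.asIdeal = ℓ} :=
    Fintype.ofFinite _
  unfold degOne
  rw [← Nat.card_congr (Equiv.sigmaFiberEquiv (below K L hℓ)), Nat.card_sigma,
    Nat.card_eq_fintype_card (α := {v : HeightOneSpectrum (𝓞 K) // Ideal.absNorm v.asIdeal = ℓ}),
    mul_comm, ← smul_eq_mul, ← Finset.card_univ, ← Finset.sum_const]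
  refine Finset.sum_le_sum fun v _ => ?_
  haveI := v.1.isPrime
  haveI := finite_primesOver K L v.1.asIdeal
  refine le_trans ?_ (card_primesOver_le K L v.1.asIdeal)
  refine Nat.card_le_card_of_injective
    (fun w => (⟨w.1.1.asIdeal, w.1.1.isPrime, ⟨?_⟩⟩ : v.1.asIdeal.primesOver (𝓞 L))) ?_
  · exact (congrArg (fun z => z.1.asIdeal) w.2).symm
  · intro w w' h
    exact Subtype.ext (Subtype.ext (HeightOneSpectrum.ext (congrArg Subtype.val h)))

end General

/-- the degree of a tower of subfields of `ℚ̄` -/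
theorem finrank_eq (E M : IntermediateField ℚ Qb) [NumberField E] [NumberField M] (hEM : E ≤ M)
    (k : ℕ) (hk : Module.finrank ℚ M = k * Module.finrank ℚ E) :
    letI : Algebra E M := (IntermediateField.inclusion hEM).toRingHom.toAlgebra
    Module.finrank E M = k := by
  letI : Algebra E M := (IntermediateField.inclusion hEM).toRingHom.toAlgebra
  haveI : IsScalarTower ℚ E M := IsScalarTower.of_algebraMap_eq fun x => by
    exact ((IntermediateField.inclusion hEM).commutes x).symm
  have h1 := Module.finrank_mul_finrank ℚ E M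
  rw [hk, mul_comm] at h1
  exact Nat.eq_of_mul_eq_mul_right Module.finrank_pos h1

end U

theorem degOne_le (E M : IntermediateField ℚ Qb) [NumberField E] [NumberField M] (hEM : E ≤ M)
    (k : ℕ) (hk : Module.finrank ℚ M = k * Module.finrank ℚ E) (ℓ : ℕ) (hℓ : ℓ.Prime) :
    degOne M ℓ ≤ k * degOne E ℓ := by
  letI : Algebra E M := (IntermediateField.inclusion hEM).toRingHom.toAlgebra
  have h1 := U.degOne_le_of_algebra E M hℓ
  rwa [U.finrank_eq E M hEM k hk] at h1

end Fermat.Agent.ChebLib
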