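import Mathlib
import Fermat.Agent.Cheb.Defs
import Fermat.Agent.Cheb.FrobDegOne
import Fermat.Agent.Cheb.UpperCount

/-!
# Chebotarev library, leaf (L): primes of degree one which split completely
-/

set_option autoImplicit false
set_option linter.style.haveILetI false

namespace Fermat.Agent.ChebLib

open NumberField IsDedekindDomain Fermat.Agent.S14Lib
open scoped Pointwise
open Fermat.Agent.FrobLib

local notation "Qb" => AlgebraicClosure ℚ
local notation "GQ" => (AlgebraicClosure ℚ ≃ₐ[ℚ] AlgebraicClosure ℚ)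
local notation "Zbar" => integralClosure ℤ (AlgebraicClosure ℚ)

namespace L

section General

variable (K L : Type) [Field K] [NumberField K] [Field L] [NumberField L] [Algebra K L]

theorem card_primesOver_eq {ℓ : ℕ} (hℓ : ℓ.Prime) (v : Ideal (𝓞 K)) [v.IsPrime]
    (hv : Ideal.absNorm v = ℓ)
    (h : ∀ w : Ideal (𝓞 L), w.IsPrime → w.LiesOver v →
      Ideal.absNorm w = ℓ ∧ w.ramificationIdx (𝓞 K) = 1) :
    Nat.card (v.primesOver (𝓞 L)) = Module.finrank K L := by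
  haveI := U.finite_primesOver K L v
  letI : Fintype (v.primesOver (𝓞 L)) := Fintype.ofFinite _
  rw [← U.sum_eq K L v, Nat.card_eq_fintype_card, Fintype.card_eq_sum_ones]
  refine Finset.sum_congr rfl fun q _ => ?_
  haveI : q.1.IsPrime := q.2.1
  haveI : q.1.LiesOver v := q.2.2
  obtain ⟨h1, h2⟩ := h q.1 q.2.1 q.2.2
  have h3 := Ideal.absNorm_pow_inertiaDeg v q.1
  rw [h1, hv] at h3
  rw [h2, ((Nat.Prime.pow_eq_iff hℓ).mp h3).2]

theorem le_degOne_of_algebra {ℓ : ℕ} (hℓ : ℓ.Prime)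
    (h : ∀ w : Ideal (𝓞 L), w.IsPrime → Ideal.absNorm (w.under (𝓞 K)) = ℓ →
      Ideal.absNorm w = ℓ ∧ w.ramificationIdx (𝓞 K) = 1) :
    Module.finrank K L * degOne K ℓ ≤ degOne L ℓ := by
  haveI := U.finite_degOne K ℓ
  haveI := U.finite_degOne L ℓ
  letI : Fintype {v : HeightOneSpectrum (𝓞 K) // Ideal.absNorm v.asIdeal = ℓ} :=
    Fintype.ofFinite _
  unfold degOne
  rw [← Nat.card_congr (Equiv.sigmaFiberEquiv (U.below K L hℓ)), Nat.card_sigma,
    Nat.card_eq_fintype_card (α := {v : HeightOneSpectrum (𝓞 K) // Ideal.absNorm v.asIdeal = ℓ}),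
    mul_comm, ← smul_eq_mul, ← Finset.card_univ, ← Finset.sum_const]
  refine Finset.sum_le_sum fun v _ => ?_
  haveI := v.1.isPrime
  have hh : ∀ w : Ideal (𝓞 L), w.IsPrime → w.LiesOver v.1.asIdeal →
      Ideal.absNorm w = ℓ ∧ w.ramificationIdx (𝓞 K) = 1 := by
    intro w hw hwv
    apply h w hw
    rw [← hwv.over]
    exact v.2
  rw [← card_primesOver_eq K L hℓ v.1.asIdeal v.2 hh]
  have hne : ∀ q : v.1.asIdeal.primesOver (𝓞 L), q.1 ≠ ⊥ := by
    intro q hq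
    have h1 := (hh q.1 q.2.1 q.2.2).1
    rw [hq, Ideal.absNorm_bot] at h1
    exact hℓ.ne_zero h1.symm
  refine Nat.card_le_card_of_injective
    (fun q => (⟨⟨⟨q.1, q.2.1, hne q⟩, (hh q.1 q.2.1 q.2.2).1⟩, ?_⟩ :
      {w // U.below K L hℓ w = v})) ?_
  · apply Subtype.ext
    apply HeightOneSpectrum.ext
    exact q.2.2.over.symm
  · intro q q' hq
    apply Subtype.ext
    exact congrArg (fun z => z.1.1.asIdeal) hq

/-- a finite field all of whose elements satisfy `x ^ ℓ = x` has at most `ℓ` elements -/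
theorem card_le_of_pow_eq {F : Type*} [Field F] [Finite F] {ℓ : ℕ} (hℓ : 1 < ℓ)
    (h : ∀ x : F, x ^ ℓ = x) : Nat.card F ≤ ℓ := by
  classical
  letI : Fintype F := Fintype.ofFinite F
  have h1 : (Finset.univ : Finset F).val ⊆ (Polynomial.X ^ ℓ - Polynomial.X : Polynomial F).roots := by
    intro x _
    rw [Polynomial.mem_roots (FiniteField.X_pow_card_sub_X_ne_zero F hℓ)]
    simp [h x]
  have h2 := Polynomial.card_le_degree_of_subset_roots h1
  rwa [FiniteField.X_pow_card_sub_X_natDegree_eq F hℓ, Finset.card_univ,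
    ← Nat.card_eq_fintype_card] at h2

theorem absNorm_eq_of_pow_sub_mem {ℓ : ℕ} (hℓ : ℓ.Prime) (w : Ideal (𝓞 L)) [w.IsPrime]
    (hv : Ideal.absNorm (w.under (𝓞 K)) = ℓ) (h : ∀ x : 𝓞 L, x ^ ℓ - x ∈ w) :
    Ideal.absNorm w = ℓ := by
  have h3 := Ideal.absNorm_pow_inertiaDeg (w.under (𝓞 K)) w
  rw [hv] at h3
  have hw0 : w ≠ ⊥ := by
    rintro rfl
    rw [Ideal.absNorm_bot] at h3
    exact (pow_ne_zero _ hℓ.ne_zero) h3
  haveI : w.IsMaximal := Ideal.IsPrime.isMaximal inferInstance hw0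
  letI : Field (𝓞 L ⧸ w) := Ideal.Quotient.field w
  haveI : Finite (𝓞 L ⧸ w) := Ideal.finiteQuotientOfFreeOfNeBot w hw0
  have h4 : Nat.card (𝓞 L ⧸ w) ≤ ℓ := by
    apply card_le_of_pow_eq hℓ.one_lt
    intro x
    obtain ⟨y, rfl⟩ := Ideal.Quotient.mk_surjective x
    rw [← map_pow, Ideal.Quotient.eq]
    exact h y
  have h5 : Ideal.absNorm w ≤ ℓ := by
    rwa [Ideal.absNorm_apply, Submodule.cardQuot_apply]
  apply le_antisymm h5
  rw [← h3]
  exact Nat.le_self_pow (Ideal.inertiaDeg_pos w (𝓞 K)).ne' ℓ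

theorem ramificationIdx_eq_one {ℓ : ℕ} (hℓ : ℓ.Prime) (hd : ¬ (ℓ : ℤ) ∣ discr L)
    (w : Ideal (𝓞 L)) [w.IsPrime] (hw : (ℓ : 𝓞 L) ∈ w) : w.ramificationIdx (𝓞 K) = 1 := by
  have hw0 : w ≠ ⊥ := by
    rintro rfl
    rw [Ideal.mem_bot] at hw
    exact hℓ.ne_zero (by exact_mod_cast hw)
  haveI : w.IsMaximal := Ideal.IsPrime.isMaximal inferInstance hw0
  have hover : w.LiesOver (Ideal.span {(ℓ : ℤ)}) := by
    constructor
    have hmax : (Ideal.span {(ℓ : ℤ)}).IsMaximal :=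
      PrincipalIdealRing.isMaximal_of_irreducible (Nat.prime_iff_prime_int.mp hℓ).irreducible
    apply hmax.eq_of_le
    · exact (Ideal.IsPrime.under ℤ w).ne_top
    · rw [Ideal.span_singleton_le_iff_mem, Ideal.under, Ideal.mem_comap]
      simpa using hw
  haveI : Algebra.IsUnramifiedAt ℤ w :=
    (not_dvd_discr_iff_forall_liesOver L (𝓞 L) (Nat.prime_iff_prime_int.mp hℓ)).mp hd w
      inferInstance hover
  haveI : Algebra.IsUnramifiedAt (𝓞 K) w := Algebra.IsUnramifiedAt.of_restrictScalars ℤ w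
  exact Ideal.ramificationIdx_eq_one w (𝓞 K)

end General

/-- a Frobenius element acts as `b ↦ b ^ ℓ` modulo the center -/
theorem smul_sub_pow_mem (A : ValuationSubring Qb) (φ : GQ) (ℓ : ℕ)
    (hφ : A.IsFrobeniusAt φ ℓ) (b : Zbar) : φ • b - b ^ ℓ ∈ center A := by
  obtain ⟨hσ, hF⟩ := hφ
  have h1 := hF (IsLocalRing.residue A (incl A b))
  rw [← IsLocalRing.ResidueField.residue_smul, ← map_pow, ← sub_eq_zero, ← map_sub,
    IsLocalRing.residue_eq_zero_iff] at h1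
  rw [center, Ideal.mem_comap]
  exact h1

end L

theorem exists_le_degOne (E M : IntermediateField ℚ Qb) [NumberField E] [NumberField M]
    (hEM : E ≤ M) (k : ℕ) (hk : Module.finrank ℚ M = k * Module.finrank ℚ E) :
    ∃ S₁ : Finset ℕ, ∀ ℓ : ℕ, ℓ.Prime → ℓ ∉ S₁ →
      (∀ (A : ValuationSubring Qb) (φ : GQ), A.LiesOverPrime ℓ → A.IsFrobeniusAt φ ℓ →
        φ ∈ E.fixingSubgroup → φ ∈ M.fixingSubgroup) →
      k * degOne E ℓ ≤ degOne M ℓ := by
  refine ⟨(discr M).natAbs.primeFactors, fun ℓ hℓ hS hfix => ?_⟩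
  letI : Algebra E M := (IntermediateField.inclusion hEM).toRingHom.toAlgebra
  have hd : ¬ (ℓ : ℤ) ∣ discr M := by
    intro h
    apply hS
    rw [Nat.mem_primeFactors]
    exact ⟨hℓ, Int.natCast_dvd.mp h, Int.natAbs_ne_zero.mpr (discr_ne_zero M)⟩
  rw [← U.finrank_eq E M hEM k hk]
  apply L.le_degOne_of_algebra E M hℓ
  intro w hw hv
  have hw0 : w ≠ ⊥ := by
    rintro rfl
    have h3 := Ideal.absNorm_pow_inertiaDeg ((⊥ : Ideal (𝓞 M)).under (𝓞 E)) (⊥ : Ideal (𝓞 M))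
    rw [hv, Ideal.absNorm_bot] at h3
    exact (pow_ne_zero _ hℓ.ne_zero) h3
  obtain ⟨A, hA⟩ := LP_exists_place M w hw hw0
  have hAE : ∀ x : 𝓞 E, LP_toZbar E x ∈ center A ↔ x ∈ w.under (𝓞 E) := by
    intro x
    rw [Ideal.under, Ideal.mem_comap, ← hA]
    exact Iff.rfl
  obtain ⟨hAℓ, φ, hφ, hφE⟩ := exists_frobenius_over E ℓ hℓ (w.under (𝓞 E)) inferInstance hv A hAE
  have hφM := hfix A φ hAℓ hφ hφE
  have hpow : ∀ x : 𝓞 M, x ^ ℓ - x ∈ w := by
    intro x
    have h1 := L.smul_sub_pow_mem A φ ℓ hφ (LP_toZbar M x)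
    have h2 : φ • LP_toZbar M x = LP_toZbar M x := by
      apply Subtype.ext
      exact (IntermediateField.mem_fixingSubgroup_iff M φ).mp hφM _ (x : M).2
    rw [h2, ← map_pow, ← map_sub, hA] at h1
    have := w.neg_mem h1
    rwa [neg_sub] at this
  have hN := L.absNorm_eq_of_pow_sub_mem E M hℓ w hv hpow
  refine ⟨hN, L.ramificationIdx_eq_one E M hℓ hd w ?_⟩
  exact hN ▸ Ideal.absNorm_mem w

end Fermat.Agent.ChebLib
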